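import Fermat.Agent.BrauerInduction.Monomial

/-!
# Brauer's induction theorem

By Solomon's theorem only hyperelementary groups need care; there the function induced from `1` on
`E = C_C(P) P` is `1` plus irreducible characters of degree `> 1`, which are induced from proper
subgroups, so linear characters are integral combinations of inductions from elementary subgroups.
-/

set_option autoImplicit false
set_option linter.style.haveILetI false

noncomputable section

open Finset Module FA.FrobeniusGroups FA.CharacterTheory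

namespace FA.BrauerInduction

universe u

/-- `H` is the product of a cyclic group and a `p`-group which commute, of coprime orders. -/
def IsElementary {G : Type*} [Group G] (H : Subgroup G) : Prop :=
  ∃ (p : ℕ) (c : G) (P : Subgroup G), p.Prime ∧ IsPGroup p P ∧ (orderOf c).Coprime p ∧
    (∀ y ∈ P, c * y = y * c) ∧ H = Subgroup.zpowers c ⊔ P

theorem exists_of_mem_sup {G : Type*} [Group G] {c : G} {P : Subgroup G}
    (hc : ∀ y ∈ P, c * y = y * c) {x : G} (hx : x ∈ Subgroup.zpowers c ⊔ P) :
    ∃ i : ℤ, ∃ y ∈ P, x = c ^ i * y := by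
  rw [Subgroup.sup_eq_closure] at hx
  induction hx using Subgroup.closure_induction with
  | mem z hz =>
    rcases hz with hz | hz
    · obtain ⟨i, rfl⟩ := Subgroup.mem_zpowers_iff.1 hz
      exact ⟨i, 1, P.one_mem, (mul_one _).symm⟩
    · exact ⟨0, z, hz, by simp⟩
  | one => exact ⟨0, 1, P.one_mem, by simp⟩
  | mul a b _ _ ha hb =>
    obtain ⟨i, y, hy, rfl⟩ := ha
    obtain ⟨j, z, hz, rfl⟩ := hb
    refine ⟨i + j, y * z, P.mul_mem hy hz, ?_⟩
    have : c ^ j * y = y * c ^ j := (Commute.zpow_left (hc y hy) j).eq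
    rw [mul_assoc, ← mul_assoc y, ← this, zpow_add]
    group
  | inv a _ ha =>
    obtain ⟨i, y, hy, rfl⟩ := ha
    refine ⟨-i, y⁻¹, P.inv_mem hy, ?_⟩
    rw [mul_inv_rev, ← zpow_neg]
    exact ((Commute.zpow_left (hc _ (P.inv_mem hy)) (-i)).eq).symm

theorem IsElementary.isHyper {G : Type*} [Group G] {H : Subgroup G} (hH : IsElementary H) :
    IsHyper H := by
  obtain ⟨p, c, P, hp, hP, hcop, hc, rfl⟩ := hH
  refine ⟨p, hp, Subgroup.zpowers c, le_sup_left, inferInstance, by rwa [Nat.card_zpowers],
    fun h hh d hd => ?_, fun h hh => ?_⟩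
  · obtain ⟨i, y, hy, rfl⟩ := exists_of_mem_sup hc hh
    obtain ⟨j, rfl⟩ := Subgroup.mem_zpowers_iff.1 hd
    have h1 : c ^ i * y * c ^ j * (c ^ i * y)⁻¹ = c ^ j := by
      have hy' : y * c ^ j = c ^ j * y := ((Commute.zpow_left (hc y hy) j).eq).symm
      rw [mul_assoc (c ^ i), hy']
      group
    rw [h1]
    exact Subgroup.zpow_mem _ (Subgroup.mem_zpowers c) j
  · obtain ⟨i, y, hy, rfl⟩ := exists_of_mem_sup hc hh
    obtain ⟨k, hk⟩ := hP ⟨y, hy⟩
    refine ⟨k, ?_⟩
    rw [(Commute.zpow_left (hc y hy) i : Commute (c ^ i) y).mul_pow,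
      show y ^ p ^ k = 1 from congrArg Subtype.val hk, mul_one]
    exact Subgroup.pow_mem _ (Subgroup.zpow_mem _ (Subgroup.mem_zpowers c) i) _

theorem IsElementary.mono {G : Type*} [Group G] [Finite G] {H K : Subgroup G}
    (hH : IsElementary H) (hle : K ≤ H) : IsElementary K := by
  obtain ⟨p, c, P, hp, hP, hcop, hc, rfl⟩ := hH
  obtain ⟨⟨d, hdC, hdK⟩, hd⟩ :=
    (Subgroup.isCyclic_of_le (inf_le_left : Subgroup.zpowers c ⊓ K ≤ Subgroup.zpowers c)
      ).exists_generator
  refine ⟨p, d, P ⊓ K, hp, hP.to_le inf_le_left, ?_, fun y hy => ?_,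
    le_antisymm (fun x hx => ?_) ?_⟩
  · refine Nat.Coprime.coprime_dvd_left ?_ hcop
    rw [← Nat.card_zpowers, ← Nat.card_zpowers]
    exact Subgroup.card_dvd_of_le (Subgroup.zpowers_le.2 hdC)
  · obtain ⟨i, rfl⟩ := Subgroup.mem_zpowers_iff.1 hdC
    exact (Commute.zpow_left (hc y hy.1) i).eq
  · obtain ⟨i, y, hy, rfl⟩ := exists_of_mem_sup hc (hle hx)
    obtain ⟨k, hk⟩ := hP ⟨y, hy⟩
    have hyk : y ^ p ^ k = 1 := congrArg Subtype.val hk
    have hcy : Commute (c ^ i) y := Commute.zpow_left (hc y hy) i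
    have hcop' : (p ^ k).Coprime (orderOf c) := (hcop.symm).pow_left k
    have hpow : c ^ (i * ((p ^ k : ℕ) : ℤ)) ∈ K := by
      have := K.pow_mem hx (p ^ k)
      rwa [hcy.mul_pow, hyk, mul_one, ← zpow_natCast, ← zpow_mul] at this
    have hci : c ^ i ∈ K := by
      have hbez : ((p ^ k : ℕ) : ℤ) * (p ^ k).gcdA (orderOf c) +
          (orderOf c : ℤ) * (p ^ k).gcdB (orderOf c) = 1 := by
        rw [← Nat.gcd_eq_gcd_ab, show (p ^ k).gcd (orderOf c) = 1 from hcop', Nat.cast_one]
      have h := congrArg (fun z : ℤ => c ^ (i * z)) hbez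
      simp only [mul_one, mul_add, zpow_add] at h
      rw [← h, ← mul_assoc, ← mul_assoc, zpow_mul, zpow_mul c (i * _), mul_comm i (orderOf c : ℤ),
        zpow_mul c (orderOf c : ℤ), zpow_natCast, pow_orderOf_eq_one, one_zpow, one_zpow, mul_one]
      exact K.zpow_mem hpow _
    have hy' : y ∈ K := by
      have := K.mul_mem (K.inv_mem hci) hx
      rwa [inv_mul_cancel_left] at this
    refine Subgroup.mul_mem_sup ?_ ⟨hy, hy'⟩
    obtain ⟨j, hj⟩ := Subgroup.mem_zpowers_iff.1
      (hd ⟨c ^ i, Subgroup.zpow_mem _ (Subgroup.mem_zpowers c) i, hci⟩)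
    exact Subgroup.mem_zpowers_iff.2 ⟨j, congrArg Subtype.val hj⟩
  · exact sup_le (Subgroup.zpowers_le.2 hdK) inf_le_right

theorem IsElementary.map {G G' : Type*} [Group G] [Group G'] {H : Subgroup G}
    (hH : IsElementary H) (f : G →* G') (hf : Function.Injective f) :
    IsElementary (H.map f) := by
  obtain ⟨p, c, P, hp, hP, hcop, hc, rfl⟩ := hH
  refine ⟨p, f c, P.map f, hp, hP.map f, by rwa [orderOf_injective f hf], ?_,
    by rw [Subgroup.map_sup, MonoidHom.map_zpowers]⟩
  rintro _ ⟨y, hy, rfl⟩
  rw [← map_mul, ← map_mul, hc y hy]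

/-- The span of the functions induced from linear characters of elementary subgroups. -/
def brauerSpan (G : Type*) [Group G] [Fintype G] : AddSubgroup (G → ℂ) :=
  AddSubgroup.closure {f | ∃ H : Subgroup G, IsElementary H ∧
    ∃ ψ : H →* ℂˣ, f = induced H fun y => (ψ y : ℂ)}

/-- Induction respects the span. -/
theorem induced_mem {G : Type*} [Group G] [Fintype G] (T : Subgroup G) [Fintype T] {φ : T → ℂ}
    (hφ : φ ∈ brauerSpan T) : induced T φ ∈ brauerSpan G := by
  induction hφ using AddSubgroup.closure_induction with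
  | zero => rw [← inducedHom_apply, map_zero]; exact zero_mem _
  | add a b _ _ ha hb => rw [← inducedHom_apply, map_add]; exact add_mem ha hb
  | neg a _ ha => rw [← inducedHom_apply, map_neg]; exact neg_mem ha
  | mem a ha =>
    obtain ⟨E, hE, ψ, rfl⟩ := ha
    obtain rfl := Subsingleton.elim ‹Fintype T› (Fintype.ofFinite T)
    refine AddSubgroup.subset_closure ⟨E.map T.subtype, hE.map _ T.subtype_injective,
      ψ.comp (E.equivMapOfInjective T.subtype T.subtype_injective).symm.toMonoidHom, ?_⟩
    convert induced_induced T E fun y => (ψ y : ℂ)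
    rfl

variable {G : Type*} [Group G] [Fintype G]

/-- The representation of a linear character. -/
def linRep (ψ : G →* ℂˣ) : Representation ℂ G ℂ :=
  ((algebraMap ℂ (Module.End ℂ ℂ)).toMonoidHom.comp (Units.coeHom ℂ)).comp ψ

omit [Fintype G] in
theorem linRep_character (ψ : G →* ℂˣ) : (linRep ψ).character = fun x => (ψ x : ℂ) :=
  funext fun x => by
    show LinearMap.trace ℂ ℂ (algebraMap ℂ (Module.End ℂ ℂ) (ψ x : ℂ)) = _
    rw [Algebra.algebraMap_eq_smul_one, map_smul, LinearMap.trace_one, Module.finrank_self]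
    simp

/-- An irreducible character of degree `1` is a homomorphism. -/
theorem exists_hom_of_one {χ : G → ℂ} (hχ : χ ∈ irr G) (h1 : χ 1 = 1) :
    ∃ ψ : G →* ℂˣ, (fun x => (ψ x : ℂ)) = χ := by
  obtain ⟨W, -, rfl⟩ := exists_of_mem_irr hχ
  rw [Representation.char_one, Nat.cast_eq_one] at h1
  set b := Module.finBasisOfFinrankEq ℂ W.toSubmodule h1
  have hc : ∀ x, W.toRepresentation.character x =
      LinearMap.toMatrix b b (W.toRepresentation x) 0 0 := fun x => by
    rw [Representation.character, LinearMap.trace_eq_matrix_trace ℂ b, Matrix.trace_fin_one]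
  refine ⟨MonoidHom.toHomUnits
    { toFun := W.toRepresentation.character
      map_one' := by rw [Representation.char_one, h1, Nat.cast_one]
      map_mul' := fun x y => by
        rw [hc, hc, hc, map_mul, LinearMap.toMatrix_mul, Matrix.mul_apply, Fin.sum_univ_one] },
    rfl⟩

/-- A linear character times an irreducible one is irreducible. -/
theorem mul_mem_irr (ψ : G →* ℂˣ) {χ : G → ℂ} (hχ : χ ∈ irr G) :
    (fun x => (ψ x : ℂ) * χ x) ∈ irr G := by
  classical
  have hn := pairing_irr hχ hχ
  obtain ⟨W, -, rfl⟩ := exists_of_mem_irr hχ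
  rw [if_pos rfl] at hn
  have he : (Representation.tprod (linRep ψ) W.toRepresentation).character =
      fun x => (ψ x : ℂ) * W.toRepresentation.character x := by
    rw [Representation.char_tensor, linRep_character]
    rfl
  rw [← he]
  refine mem_irr_of_norm _ ?_
  rw [he, ← hn, pairing, pairing]
  congr 1
  refine sum_congr rfl fun x _ => ?_
  rw [mul_mul_mul_comm, ← Units.val_mul, ← map_mul, mul_inv_cancel, map_one, Units.val_one, one_mul]

open scoped Classical in
/-- In a hyperelementary group a linear character trivial on `C_C(P) P` is trivial. -/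
theorem eq_one_of_trivial {p : ℕ} [Fact p.Prime] {C : Subgroup G} [IsCyclic C]
    (hcop : (Nat.card C).Coprime p) (hn : C.Normal) (hpow : ∀ x : G, ∃ k : ℕ, x ^ p ^ k ∈ C)
    (P : Sylow p G) (ψ : G →* ℂˣ) (hP : ∀ y ∈ P, ψ y = 1)
    (hZ : ∀ c ∈ C, (∀ y ∈ P, c * y = y * c) → ψ c = 1) : ψ = 1 := by
  letI := IsCyclic.commGroup (α := C)
  have hC : ∀ c ∈ C, ψ c = 1 := fun c hc => by
    set n : C := ∏ y : (P : Subgroup G), ⟨(y : G) * c * (y : G)⁻¹, hn.conj_mem c hc y⟩
    have hcent : ∀ y ∈ P, (n : G) * y = y * n := fun y hy => by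
      set conj : C →* C := (MulAut.conjNormal y : C ≃* C).toMonoidHom
      have h1 : conj n = n := by
        simp only [n, map_prod]
        refine Fintype.prod_equiv (Equiv.mulLeft (⟨y, hy⟩ : (P : Subgroup G))) _ _ fun z => ?_
        refine Subtype.ext ?_
        simp [conj, mul_assoc]
      have h2 := congrArg Subtype.val h1
      simp only [conj, MulEquiv.coe_toMonoidHom, MulAut.conjNormal_apply] at h2
      nth_rewrite 1 [← h2]
      group
    have h1 : ψ (n : G) = 1 := hZ n n.2 hcent
    have h2 : ψ (n : G) = ψ c ^ Nat.card P := by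
      rw [show ψ (n : G) = ψ.comp C.subtype n from rfl, map_prod, Nat.card_eq_fintype_card,
        ← card_univ, ← prod_const]
      exact prod_congr rfl fun y _ => by
        simp only [MonoidHom.comp_apply, Subgroup.coe_subtype, map_mul, map_inv,
          mul_inv_cancel_comm]
    rw [h1] at h2
    obtain ⟨j, hj⟩ := IsPGroup.iff_card.1 P.2
    have h3 : ψ c ^ Nat.card C = 1 := by
      rw [← map_pow, show c ^ Nat.card C = 1 from
        congrArg Subtype.val (pow_card_eq_one' (x := (⟨c, hc⟩ : C))), map_one]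
    have h4 : (Nat.card P).Coprime (Nat.card C) := hj ▸ (hcop.symm.pow_left j)
    have h5 := (pow_gcd_eq_one (a := ψ c)).2 ⟨h2.symm, h3⟩
    rwa [show Nat.gcd (Nat.card P) (Nat.card C) = 1 from h4, pow_one] at h5
  refine MonoidHom.ext fun x => ?_
  obtain ⟨k, hk⟩ := hpow x
  have h1 : ψ x ^ p ^ k = 1 := by rw [← map_pow, hC _ hk]
  have h2 : ψ x ^ ψ.ker.index = 1 := by
    rw [← map_pow]
    exact MonoidHom.mem_ker.1 (Subgroup.pow_index_mem ψ.ker x)
  have h3 : ¬p ∣ ψ.ker.index := fun h => P.not_dvd_index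
    (h.trans (Subgroup.index_dvd_of_le fun y hy => MonoidHom.mem_ker.2 (hP y hy)))
  have h4 : (p ^ k).Coprime ψ.ker.index :=
    ((Fact.out : p.Prime).coprime_iff_not_dvd.2 h3).pow_left k
  have h5 := (pow_gcd_eq_one (a := ψ x)).2 ⟨h1, h2⟩
  rwa [show Nat.gcd (p ^ k) ψ.ker.index = 1 from h4, pow_one] at h5

open scoped Classical in
/-- Off the hyperelementary case everything is induced from proper subgroups. -/
theorem mem_of_not_hyper (hG : ¬IsHyper (⊤ : Subgroup G)) {χ : G → ℂ}
    (hχ : ∀ g x, χ (g * x * g⁻¹) = χ x)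
    (hproper : ∀ T : Subgroup G, T ≠ ⊤ → induced T (fun y => χ y) ∈ brauerSpan G) :
    χ ∈ brauerSpan G := by
  have key : ∀ f ∈ hyperSpan G, (fun x => (f x : ℂ) * χ x) ∈ brauerSpan G := fun f hf => by
    induction hf using AddSubgroup.closure_induction with
    | zero =>
      convert zero_mem (brauerSpan G) using 1
      funext x; simp
    | add a b _ _ ha hb =>
      convert add_mem ha hb using 1
      funext x; simp [add_mul]
    | neg a _ ha =>
      convert neg_mem ha using 1
      funext x; simp
    | mem a ha =>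
      obtain ⟨H, hH, rfl⟩ := ha
      convert hproper H (fun e => hG (e ▸ hH)) using 1
      have h := mul_induced H (fun _ => 1) hχ
      simp only [mul_one] at h
      rw [← h]
      funext x
      rw [Pi.mul_apply, induced_one, mul_comm, Int.cast_natCast]
  simpa using key 1 (solomon G)

open scoped Classical in
/-- A linear character is `1` plus non-linear ones, induced from `C_C(P) P`. -/
theorem hom_mem_of_hyper (hG : IsHyper (⊤ : Subgroup G))
    (hbig : ∀ φ ∈ irr G, φ 1 ≠ 1 → φ ∈ brauerSpan G) (lam : G →* ℂˣ) :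
    (fun x => (lam x : ℂ)) ∈ brauerSpan G := by
  obtain ⟨p, hp, C, -, hcyc, hcop, hnorm, hpow⟩ := hG
  haveI := Fact.mk hp
  haveI := hcyc
  obtain ⟨P⟩ : Nonempty (Sylow p G) := inferInstance
  set Z : Subgroup G := C ⊓ Subgroup.centralizer (P : Set G)
  haveI : IsCyclic Z := Subgroup.isCyclic_of_le inf_le_left
  obtain ⟨⟨c, hcC, hcP⟩, hc⟩ := IsCyclic.exists_generator (α := Z)
  set E := Subgroup.zpowers c ⊔ (P : Subgroup G)
  have hE : IsElementary E := by
    refine ⟨p, c, P, hp, P.2, ?_, fun y hy => ?_, rfl⟩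
    · refine Nat.Coprime.coprime_dvd_left ?_ hcop
      rw [← Nat.card_zpowers]
      exact Subgroup.card_dvd_of_le (Subgroup.zpowers_le.2 hcC)
    · exact (Subgroup.mem_centralizer_iff.1 hcP y hy).symm
  choose! n hn using fun (φ : G → ℂ) (hφ : φ ∈ irr G) => show
      ∃ n : ℤ, pairing (induced E fun _ => 1) φ = n by
    obtain ⟨U, -, rfl⟩ := exists_of_mem_irr hφ
    rw [pairing_induced E _ fun g x => U.toRepresentation.char_conj x g]
    exact exists_int_average (K := E) (U.toRepresentation.comp E.subtype)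
  have hone : n (fun _ => 1) = 1 := by
    have h := hn _ one_mem_irr
    rw [pairing_induced E _ fun g x => rfl] at h
    simp [pairing, Nat.card_eq_fintype_card] at h
    exact_mod_cast h.symm
  have hlin : ∀ φ ∈ irr G, φ ≠ (fun _ => 1) → φ 1 = 1 → n φ = 0 := fun φ hφ hne h1' => by
    obtain ⟨μ, rfl⟩ := exists_hom_of_one hφ h1'
    have h := hn _ hφ
    rw [pairing_induced E _ fun g x => by simp [mul_inv_cancel_comm]] at h
    by_contra h0
    refine hne ?_
    set f : E →* ℂ := ((Units.coeHom ℂ).comp μ).comp E.subtype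
    have hf : f = 1 := by
      by_contra hf
      refine h0 ?_
      have hs : ∑ y : E, (μ (y : G)⁻¹ : ℂ) = 0 := by
        rw [← sum_hom_units_eq_zero f hf]
        exact Fintype.sum_equiv (Equiv.inv E) _ _ fun y => by simp [f]
      simp only [pairing, one_mul, Subgroup.coe_inv, hs, mul_zero] at h
      exact_mod_cast h.symm
    have hμ : μ = 1 := by
      refine eq_one_of_trivial (C := C) hcop ⟨fun c hc g => hnorm g trivial c hc⟩
        (fun x => hpow x trivial) P μ (fun y hy => Units.ext ?_) fun d hd hdP => Units.ext ?_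
      · exact DFunLike.congr_fun hf (⟨y, Subgroup.mem_sup_right hy⟩ : E)
      · obtain ⟨i, hi⟩ := Subgroup.mem_zpowers_iff.1 (hc ⟨d, hd, fun y hy => (hdP y hy).symm⟩)
        exact DFunLike.congr_fun hf (⟨d, Subgroup.mem_sup_left
          (Subgroup.mem_zpowers_iff.2 ⟨i, congrArg Subtype.val hi⟩)⟩ : E)
    funext x
    rw [hμ, MonoidHom.one_apply, Units.val_one]
  have hexp : induced E (fun y => (lam y : ℂ)) =
      (fun x => (lam x : ℂ)) + ∑ φ ∈ (irr G).erase (fun _ => 1),
        n φ • fun x => (lam x : ℂ) * φ x := by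
    funext x
    have h := mul_induced E (fun _ => 1) (F := fun x => (lam x : ℂ))
      fun g x => by simp [mul_inv_cancel_comm]
    simp only [mul_one] at h
    rw [← h, Pi.mul_apply, expansion (induced_conj E fun _ => 1) x, mul_sum,
      ← add_sum_erase _ _ one_mem_irr, Pi.add_apply, Finset.sum_apply, hn _ one_mem_irr, hone,
      Int.cast_one, one_mul, mul_one]
    congr 1
    refine sum_congr rfl fun φ hφ => ?_
    rw [hn φ (mem_of_mem_erase hφ), Pi.smul_apply, zsmul_eq_mul]
    ring
  have hgen : induced E (fun y => (lam y : ℂ)) ∈ brauerSpan G :=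
    AddSubgroup.subset_closure ⟨E, hE, lam.comp E.subtype, rfl⟩
  rw [hexp] at hgen
  refine (add_mem_cancel_right (AddSubgroup.sum_mem _ fun φ hφ => ?_)).1 hgen
  obtain ⟨hne, hφ'⟩ := mem_erase.1 hφ
  rcases eq_or_ne (φ 1) 1 with h1' | h1'
  · rw [hlin φ hφ' hne h1', zero_smul]
    exact zero_mem _
  · refine AddSubgroup.zsmul_mem _ (hbig _ (mul_mem_irr lam hφ') ?_) _
    simpa using h1'

/-- **Brauer's induction theorem**, for irreducible characters. -/
theorem irr_mem_brauerSpan : ∀ (n : ℕ) (G : Type u) [Group G] [Fintype G], Nat.card G = n →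
    ∀ χ ∈ irr G, χ ∈ brauerSpan G := by
  classical
  intro n
  induction n using Nat.strong_induction_on with
  | _ n ih =>
    intro G _ _ hn χ hχ
    subst hn
    have hproper : ∀ T : Subgroup G, T ≠ ⊤ → ∀ φ : T → ℂ,
        φ ∈ AddSubgroup.closure (irr T : Set (T → ℂ)) → induced T φ ∈ brauerSpan G :=
      fun T hT φ hφ => by
      refine induced_mem T ?_
      have hlt : Nat.card T < Nat.card G :=
        (Subgroup.card_le_card_group T).lt_of_ne fun h => hT (Subgroup.eq_top_of_card_eq T h)
      exact (AddSubgroup.closure_le _).2 (fun φ hφ => ih _ hlt T rfl φ hφ) hφ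
    obtain ⟨W, hW, rfl⟩ := exists_of_mem_irr hχ
    by_cases hG : IsHyper (⊤ : Subgroup G)
    swap
    · refine mem_of_not_hyper hG (fun g x => W.toRepresentation.char_conj x g) fun T hT => ?_
      exact hproper T hT _ (character_mem_closure (G := T) (W.toRepresentation.comp T.subtype))
    have hbig : ∀ φ ∈ irr G, φ 1 ≠ 1 → φ ∈ brauerSpan G := fun φ hφ h1 => by
      obtain ⟨U, hU, rfl⟩ := exists_of_mem_irr hφ
      haveI := hU
      obtain ⟨T, S, hT, he⟩ := exists_induced_of_hyper U.toRepresentation hG fun h => h1 (by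
        rw [Representation.char_one, h, Nat.cast_one])
      rw [he]
      exact hproper T hT _ (character_mem_closure (V := S.toSubmodule) S.toRepresentation)
    by_cases h1 : W.toRepresentation.character 1 = 1
    swap
    · exact hbig _ hχ h1
    obtain ⟨lam, hlam⟩ := exists_hom_of_one hχ h1
    rw [← hlam]
    exact hom_mem_of_hyper hG hbig lam

/-- **Brauer's induction theorem.** -/
theorem character_mem_brauerSpan {G : Type u} [Group G] [Fintype G] {V : Type*} [AddCommGroup V]
    [Module ℂ V] [FiniteDimensional ℂ V] (σ : Representation ℂ G V) :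
    σ.character ∈ brauerSpan G :=
  (AddSubgroup.closure_le _).2 (fun φ hφ => irr_mem_brauerSpan _ G rfl φ hφ)
    (character_mem_closure σ)

open scoped Classical in
/-- **Brauer's characterisation of characters.** -/
theorem exists_int_pairing_of_elementary {f : G → ℂ} (hf : ∀ g x, f (g * x * g⁻¹) = f x)
    (h : ∀ H : Subgroup G, IsElementary H → ∀ φ ∈ irr H,
      ∃ k : ℤ, pairing (fun y : H => f y) φ = k) {χ : G → ℂ} (hχ : χ ∈ irr G) :
    ∃ k : ℤ, pairing f χ = k := by
  obtain ⟨W, -, rfl⟩ := exists_of_mem_irr hχ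
  set χ := W.toRepresentation.character
  have key : ∀ g ∈ brauerSpan G, ∃ k : ℤ, pairing (fun x => f x * g x) χ = k := fun g hg => by
    induction hg using AddSubgroup.closure_induction with
    | zero => exact ⟨0, by simp [pairing]⟩
    | add a b _ _ ha hb =>
      obtain ⟨k, hk⟩ := ha
      obtain ⟨l, hl⟩ := hb
      refine ⟨k + l, ?_⟩
      rw [Int.cast_add, ← hk, ← hl]
      simp only [pairing, Pi.add_apply, mul_add, add_mul, sum_add_distrib]
    | neg a _ ha =>
      obtain ⟨k, hk⟩ := ha
      exact ⟨-k, by rw [Int.cast_neg, ← hk]; simp [pairing]⟩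
    | mem a ha =>
      obtain ⟨H, hH, ψ, rfl⟩ := ha
      have h1 : (fun x => f x * induced H (fun y => (ψ y : ℂ)) x) =
          induced H fun y => f y * (ψ y : ℂ) := mul_induced H _ hf
      rw [h1, pairing_induced H _ fun g x => W.toRepresentation.char_conj x g]
      have h2 : pairing (fun y : H => f y * (ψ y : ℂ)) (fun y => χ y) =
          pairing (fun y : H => f y) (Representation.character
            (V := TensorProduct ℂ W.toSubmodule (Module.Dual ℂ ℂ)) (Representation.tprod
              (W.toRepresentation.comp H.subtype : Representation ℂ H W.toSubmodule)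
              (linRep ψ).dual)) := by
        simp only [pairing, Representation.char_tensor, Pi.mul_apply, Representation.char_dual,
          linRep_character]
        congr 1
        refine sum_congr rfl fun y _ => ?_
        rw [inv_inv]
        show f y * (ψ y : ℂ) * χ (y : G)⁻¹ = f y * (χ (y : G)⁻¹ * (ψ y : ℂ))
        ring
      rw [h2]
      have hσ : ∀ φ ∈ AddSubgroup.closure (irr H : Set (H → ℂ)),
          ∃ k : ℤ, pairing (fun y : H => f y) φ = k := fun φ hφ => by
        induction hφ using AddSubgroup.closure_induction with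
        | mem φ hφ => exact h H hH φ hφ
        | zero => exact ⟨0, by simp [pairing]⟩
        | add a b _ _ ha hb =>
          obtain ⟨k, hk⟩ := ha
          obtain ⟨l, hl⟩ := hb
          refine ⟨k + l, ?_⟩
          rw [Int.cast_add, ← hk, ← hl]
          simp only [pairing, Pi.add_apply, mul_add, sum_add_distrib]
        | neg a _ ha =>
          obtain ⟨k, hk⟩ := ha
          exact ⟨-k, by rw [Int.cast_neg, ← hk]; simp [pairing]⟩
      exact hσ _ (character_mem_closure _)
  have h1 := key (fun _ => 1) (by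
    have hh := character_mem_brauerSpan (linRep (1 : G →* ℂˣ))
    rw [linRep_character] at hh
    simpa using hh)
  simpa using h1

end FA.BrauerInduction

end
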