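import Fermat.Agent.CharacterTheory.Artin
import Mathlib.GroupTheory.GroupAction.Quotient

/-!
# Induction of functions from subgroups

Induction is additive and transitive and satisfies the projection formula, and the function induced
from `1` is the permutation character of the cosets, so it counts fixed cosets.
-/

set_option autoImplicit false
set_option linter.style.haveILetI false

noncomputable section

open Finset Module FA.FrobeniusGroups FA.CharacterTheory

namespace FA.BrauerInduction

variable {G : Type*} [Group G] [Fintype G]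

open scoped Classical in
/-- Extension by zero of a function on a subgroup. -/
def zext (H : Subgroup G) (φ : H → ℂ) (y : G) : ℂ := if h : y ∈ H then φ ⟨y, h⟩ else 0

omit [Fintype G] in
theorem zext_coe (H : Subgroup G) (φ : H → ℂ) (y : H) : zext H φ (y : G) = φ y := dif_pos y.2

omit [Fintype G] in
theorem zext_of_notMem (H : Subgroup G) (φ : H → ℂ) {y : G} (hy : y ∉ H) : zext H φ y = 0 :=
  dif_neg hy

theorem induced_eq (H : Subgroup G) (φ : H → ℂ) (x : G) :
    induced H φ x = (Nat.card H : ℂ)⁻¹ * ∑ g : G, zext H φ (g * x * g⁻¹) := rfl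

theorem induced_conj (H : Subgroup G) (φ : H → ℂ) (g x : G) :
    induced H φ (g * x * g⁻¹) = induced H φ x := by
  rw [induced_eq, induced_eq]
  congr 1
  refine Fintype.sum_equiv (Equiv.mulRight g) _ _ fun k => ?_
  simp only [Equiv.coe_mulRight]
  congr 1
  group

/-- Induction, as an additive map. -/
def inducedHom (H : Subgroup G) : (H → ℂ) →+ (G → ℂ) where
  toFun := induced H
  map_zero' := funext fun x => by simp [induced_eq, zext]
  map_add' φ ψ := funext fun x => by
    simp only [Pi.add_apply, induced_eq, ← mul_add, ← sum_add_distrib]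
    congr 1
    refine sum_congr rfl fun g _ => ?_
    simp only [zext]
    split_ifs <;> simp

theorem inducedHom_apply (H : Subgroup G) (φ : H → ℂ) : inducedHom H φ = induced H φ := rfl

/-- **The projection formula.** -/
theorem mul_induced (H : Subgroup G) (φ : H → ℂ) {F : G → ℂ}
    (hF : ∀ g x, F (g * x * g⁻¹) = F x) :
    F * induced H φ = induced H fun y => F y * φ y := by
  funext x
  rw [Pi.mul_apply, induced_eq, induced_eq, mul_left_comm, mul_sum (a := F x)]
  congr 1
  refine sum_congr rfl fun g _ => ?_
  simp only [zext]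
  split_ifs with h
  · rw [hF]
  · rw [mul_zero]

open scoped Classical in
/-- **Transitivity.** -/
theorem induced_induced (T : Subgroup G) (E : Subgroup T) (φ : E → ℂ) :
    induced T (induced E φ) = induced (E.map T.subtype) fun y =>
      φ ((E.equivMapOfInjective T.subtype T.subtype_injective).symm y) := by
  set E' := E.map T.subtype
  set ψ : E' → ℂ := fun y => φ ((E.equivMapOfInjective T.subtype T.subtype_injective).symm y)
  have hz : ∀ t : T, zext E φ t = zext E' ψ (t : G) := fun t => by
    by_cases ht : t ∈ E
    · have ht' : (t : G) ∈ E' := ⟨t, ht, rfl⟩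
      rw [zext, dif_pos ht, zext, dif_pos ht']
      simp only [ψ]
      congr 1
      exact ((E.equivMapOfInjective T.subtype T.subtype_injective).symm_apply_eq.2
        (Subtype.ext rfl)).symm
    · have ht' : (t : G) ∉ E' := fun ⟨u, hu, hut⟩ => ht (T.subtype_injective hut ▸ hu)
      rw [zext_of_notMem E φ ht, zext_of_notMem E' ψ ht']
  have hcard : Nat.card E' = Nat.card E :=
    (Nat.card_congr (E.equivMapOfInjective T.subtype T.subtype_injective).toEquiv).symm
  funext x
  have hinner : ∀ g : G, zext T (induced E φ) (g * x * g⁻¹) =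
      (Nat.card E : ℂ)⁻¹ * ∑ s : T, zext E' ψ (((s : G) * g) * x * ((s : G) * g)⁻¹) := fun g => by
    by_cases h : g * x * g⁻¹ ∈ T
    · rw [zext, dif_pos h, induced_eq]
      congr 1
      refine sum_congr rfl fun s _ => ?_
      rw [hz]
      congr 1
      simp only [Subgroup.coe_mul, Subgroup.coe_inv]
      group
    · rw [zext_of_notMem T _ h, sum_eq_zero, mul_zero]
      intro s _
      refine zext_of_notMem E' ψ fun hm => h ?_
      have hT : (s : G) * g * x * ((s : G) * g)⁻¹ ∈ T := Subgroup.map_subtype_le E hm
      have := T.mul_mem (T.mul_mem (T.inv_mem s.2) hT) s.2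
      rwa [show (s : G)⁻¹ * ((s : G) * g * x * ((s : G) * g)⁻¹) * s = g * x * g⁻¹ by group] at this
  rw [induced_eq, induced_eq, sum_congr rfl fun g _ => hinner g, ← mul_sum, sum_comm, hcard]
  rw [sum_congr rfl fun (s : T) _ => Fintype.sum_equiv (Equiv.mulLeft (s : G))
      (fun g => zext E' ψ ((s : G) * g * x * ((s : G) * g)⁻¹))
      (fun g => zext E' ψ (g * x * g⁻¹)) fun g => rfl,
    sum_const, card_univ, ← Nat.card_eq_fintype_card, nsmul_eq_mul,
    mul_left_comm (Nat.card T : ℂ)⁻¹,
    inv_mul_cancel_left₀ (Nat.cast_ne_zero.2 Nat.card_pos.ne')]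

/-- The permutation character of the cosets of `H`. -/
def permChar (H : Subgroup G) (x : G) : ℕ := Nat.card (MulAction.fixedBy (G ⧸ H) x)

open scoped Classical in
/-- The function induced from `1` counts fixed cosets. -/
theorem induced_one (H : Subgroup G) (x : G) :
    induced H (fun _ => 1) x = (permChar H x : ℂ) := by
  have hset : (QuotientGroup.mk ⁻¹' MulAction.fixedBy (G ⧸ H) x : Set G) =
      {g | g⁻¹ * x * g ∈ H} := by
    ext g
    show x • (g : G ⧸ H) = g ↔ _
    rw [MulAction.Quotient.smul_coe, smul_eq_mul, QuotientGroup.eq, Set.mem_ofPred_eq,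
      show (x * g)⁻¹ * g = (g⁻¹ * x * g)⁻¹ by group, H.inv_mem_iff]
  have h1 := QuotientGroup.card_preimage_mk H (MulAction.fixedBy (G ⧸ H) x)
  rw [hset] at h1
  have h2 : (∑ g : G, zext H (fun _ => (1 : ℂ)) (g * x * g⁻¹)) =
      (Nat.card {g : G | g⁻¹ * x * g ∈ H} : ℂ) := by
    rw [Fintype.sum_equiv (Equiv.inv G) (fun g => zext H (fun _ => (1 : ℂ)) (g * x * g⁻¹))
      (fun g => if g⁻¹ * x * g ∈ H then (1 : ℂ) else 0) fun g => by simp [zext],
      sum_boole, Nat.card_eq_fintype_card]
    congr 1
    exact (Fintype.card_subtype _).symm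
  rw [induced_eq, h2, h1, Nat.cast_mul, inv_mul_cancel_left₀ (Nat.cast_ne_zero.2 Nat.card_pos.ne')]
  rfl

omit [Fintype G] in
/-- A character restricted to a subgroup. -/
theorem restrict_eq {V : Type*} [AddCommGroup V] [Module ℂ V] (σ : Representation ℂ G V)
    (H : Subgroup G) :
    (fun y : H => σ.character (y : G)) = Representation.character (σ.comp H.subtype) := rfl

/-- A class function with natural pairings is a natural combination of irreducible characters. -/
theorem exists_nat_pairing {V : Type*} [AddCommGroup V] [Module ℂ V] [FiniteDimensional ℂ V]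
    (σ : Representation ℂ G V) {χ : G → ℂ} (hχ : χ ∈ irr G) :
    ∃ m : ℕ, pairing σ.character χ = m := by
  obtain ⟨W, -, rfl⟩ := exists_of_mem_irr hχ
  haveI : Invertible (Nat.card G : ℂ) :=
    invertibleOfNonzero (Nat.cast_ne_zero.2 Nat.card_pos.ne')
  exact ⟨_, Representation.card_inv_mul_sum_char_mul_char_eq_finrank W.toRepresentation σ⟩

/-- A character is an integral combination of irreducible ones. -/
theorem character_mem_closure {V : Type*} [AddCommGroup V] [Module ℂ V] [FiniteDimensional ℂ V]
    (σ : Representation ℂ G V) : σ.character ∈ AddSubgroup.closure (irr G : Set (G → ℂ)) := by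
  choose! m hm using fun (χ : G → ℂ) (hχ : χ ∈ irr G) => exists_nat_pairing σ hχ
  have h : σ.character = ∑ χ ∈ irr G, m χ • χ := funext fun x => by
    rw [expansion (fun g y => σ.char_conj y g) x, Finset.sum_apply]
    exact sum_congr rfl fun χ hχ => by rw [hm χ hχ, Pi.smul_apply, nsmul_eq_mul]
  rw [h]
  exact AddSubgroup.sum_mem _ fun χ hχ =>
    AddSubgroup.nsmul_mem _ (AddSubgroup.subset_closure hχ) _

end FA.BrauerInduction

end
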