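import Fermat.Agent.BrauerInduction.Solomon
import Mathlib.GroupTheory.PGroup
import Mathlib.RingTheory.IntegralDomain

/-!
# Blichfeldt's lemma and hyperelementary groups

An irreducible representation with a normal subgroup whose image is commutative but not scalar is
induced from the proper stabiliser of one of its eigencharacters. A hyperelementary group has such
a subgroup for every irreducible representation of degree `> 1`.
-/

set_option autoImplicit false
set_option linter.style.haveILetI false

noncomputable section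

open Finset Module FA.FrobeniusGroups FA.CharacterTheory

namespace FA.BrauerInduction

variable {G : Type*} [Group G] [Fintype G] {V : Type*} [AddCommGroup V] [Module ℂ V]
  [FiniteDimensional ℂ V] (ρ : Representation ℂ G V)

open scoped Classical in
/-- **Blichfeldt's lemma.** -/
theorem exists_induced_of_normal [Representation.IsIrreducible ρ] {A : Subgroup G} (hA : A.Normal)
    (hcomm : ∀ a ∈ A, ∀ b ∈ A, ρ a * ρ b = ρ b * ρ a)
    (hns : ∃ a ∈ A, ∀ c : ℂ, ρ a ≠ c • 1) :
    ∃ (T : Subgroup G) (W : Subrepresentation (ρ.comp T.subtype : Representation ℂ T V)), T ≠ ⊤ ∧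
      ρ.character = induced T W.toRepresentation.character := by
  set σ : Representation ℂ A V := ρ.comp A.subtype
  obtain ⟨L, hL, hsum⟩ := FA.Solvable.exists_atoms σ ⊤
  obtain ⟨U, hU⟩ : ∃ U, U ∈ L := by
    refine Multiset.exists_mem_of_ne_zero fun h => finrank_ne_zero ρ ?_
    have h1 := hsum 1
    rw [h, Multiset.map_zero, Multiset.sum_zero, Representation.char_one, Nat.cast_eq_zero] at h1
    rwa [show finrank ℂ (⊤ : Subrepresentation σ).toSubmodule = finrank ℂ V from finrank_top ℂ V]
      at h1
  haveI := hL U hU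
  haveI : Nontrivial U.toSubmodule :=
    Module.nontrivial_of_finrank_pos (Nat.pos_of_ne_zero (finrank_ne_zero U.toRepresentation))
  obtain ⟨⟨v, hvU⟩, hv0⟩ := exists_ne (0 : U.toSubmodule)
  have hv : v ≠ 0 := fun h => hv0 (Subtype.ext h)
  have heig : ∀ a : A, ∃ c : ℂ, ρ (a : G) v = c • v := fun a => by
    obtain ⟨w, hw⟩ :=
      (Representation.IsIrreducible.algebraMap_intertwiningMap_bijective_of_isAlgClosed
        (ρ := U.toRepresentation)).2 ⟨U.toRepresentation a, fun b => by
          refine LinearMap.ext fun z => Subtype.ext ?_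
          exact LinearMap.congr_fun (hcomm a a.2 b b.2) z.1⟩
    have h := congrArg Representation.IntertwiningMap.toLinearMap hw
    refine ⟨w, ?_⟩
    exact congrArg Subtype.val (LinearMap.congr_fun h ⟨v, hvU⟩).symm
  choose lam hlam using heig
  have hlmul : ∀ a b, lam (a * b) = lam a * lam b := fun a b => smul_left_injective ℂ hv <| by
    show lam (a * b) • v = (lam a * lam b) • v
    rw [← hlam, Subgroup.coe_mul, map_mul, Module.End.mul_apply, hlam, map_smul, hlam, smul_smul,
      mul_comm]
  have hlone : lam 1 = 1 := smul_left_injective ℂ hv <| by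
    show lam 1 • v = (1 : ℂ) • v
    rw [← hlam, Subgroup.coe_one, map_one, Module.End.one_apply, one_smul]
  set cj : G → A → A := fun g a => ⟨g⁻¹ * a * g, by
    have := hA.conj_mem _ a.2 g⁻¹
    rwa [inv_inv] at this⟩
  set T : Subgroup G :=
    { carrier := {g | ∀ a, lam (cj g a) = lam a}
      one_mem' := fun a => congrArg lam (Subtype.ext (by simp [cj]))
      mul_mem' := fun {g h} hg hh a => by
        rw [← hg a, ← hh (cj g a)]
        exact congrArg lam (Subtype.ext (by simp [cj, mul_assoc]))
      inv_mem' := fun {g} hg a => by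
        rw [← hg (cj g⁻¹ a)]
        exact congrArg lam (Subtype.ext (by simp [cj, mul_assoc])) }
  set E : Submodule ℂ V := ⨅ a : A, LinearMap.ker (ρ (a : G) - lam a • 1)
  have hE : ∀ w, w ∈ E ↔ ∀ a : A, ρ (a : G) w = lam a • w := fun w => by
    simp [E, sub_eq_zero]
  have hmove : ∀ g (a : A) w, w ∈ E → ρ (a : G) (ρ g w) = lam (cj g a) • ρ g w := fun g a w hw => by
    rw [← Module.End.mul_apply, ← map_mul,
      show (a : G) * g = g * (cj g a : G) by simp [cj, mul_assoc], map_mul, Module.End.mul_apply,
      (hE w).1 hw, map_smul]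
  set W : Subrepresentation (ρ.comp T.subtype : Representation ℂ T V) :=
    ⟨E, fun t w hw => (hE _).2 fun a => by
      have := hmove t a w hw
      rwa [t.2 a] at this⟩
  have hvE : v ∈ E := (hE v).2 hlam
  have hT : T ≠ ⊤ := fun hT => by
    obtain ⟨a, ha, hns'⟩ := hns
    set P : Subrepresentation ρ := ⟨E, fun g w hw => (hE _).2 fun b => by
      have := hmove g b w hw
      rwa [show lam (cj g b) = lam b from (hT ▸ Subgroup.mem_top g : g ∈ T) b] at this⟩
    rcases eq_bot_or_eq_top P with h | h
    · exact hv (show v ∈ (⊥ : Subrepresentation ρ) from h ▸ hvE)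
    · refine hns' (lam ⟨a, ha⟩) (LinearMap.ext fun w => ?_)
      exact (hE w).1 (show w ∈ P from h ▸ trivial) ⟨a, ha⟩
  refine ⟨T, W, hT, ?_⟩
  haveI : Fintype (G ⧸ T) := Fintype.ofFinite _
  -- the translates of `E` are independent
  have hdeg : T.index * finrank ℂ E ≤ finrank ℂ V := by
    set F : (G ⧸ T → E) →ₗ[ℂ] V :=
      ∑ q : G ⧸ T, (ρ q.out ∘ₗ E.subtype) ∘ₗ LinearMap.proj q
    have hF : Function.Injective F := (injective_iff_map_eq_zero F).2 fun c hc => funext fun q => by
      set e : V →ₗ[ℂ] V := ∑ a : A, lam (cj q.out a⁻¹) • ρ (a : G)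
      have he : ∀ r : G ⧸ T, ∀ w ∈ E, e (ρ r.out w) =
          if r = q then (Nat.card A : ℂ) • ρ r.out w else 0 := fun r w hw => by
        simp only [e, LinearMap.sum_apply, LinearMap.smul_apply, hmove _ _ w hw, smul_smul,
          ← sum_smul]
        set f : A →* ℂ :=
          { toFun := fun a => lam (cj q.out a⁻¹) * lam (cj r.out a)
            map_one' := by
              rw [← hlmul, ← hlone]
              exact congrArg lam (Subtype.ext (by simp [cj]))
            map_mul' := fun a b => by
              have h1 : cj q.out (a * b)⁻¹ = cj q.out b⁻¹ * cj q.out a⁻¹ :=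
                Subtype.ext (by simp [cj, mul_assoc])
              have h2 : cj r.out (a * b) = cj r.out a * cj r.out b :=
                Subtype.ext (by simp [cj, mul_assoc])
              rw [h1, h2, hlmul, hlmul]
              ring }
        split_ifs with hrq
        · subst hrq
          congr 1
          rw [Finset.sum_congr rfl fun a _ => show lam (cj r.out a⁻¹) * lam (cj r.out a) = 1 by
            rw [← hlmul, ← hlone]; exact congrArg lam (Subtype.ext (by simp [cj, mul_assoc]))]
          simp [Nat.card_eq_fintype_card]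
        · have hf : f ≠ 1 := fun hf => hrq <| by
            have hmem : q.out⁻¹ * r.out ∈ T := fun b => by
              have hb := DFunLike.congr_fun hf (⟨q.out * b * q.out⁻¹, hA.conj_mem _ b.2 _⟩ : A)
              change lam _ * lam _ = 1 at hb
              rw [show cj q.out (⟨q.out * b * q.out⁻¹, hA.conj_mem _ b.2 _⟩ : A)⁻¹ = b⁻¹ from
                  Subtype.ext (by simp [cj, mul_assoc])] at hb
              rw [show cj (q.out⁻¹ * r.out) b =
                  cj r.out ⟨q.out * b * q.out⁻¹, hA.conj_mem _ b.2 _⟩ from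
                  Subtype.ext (by simp [cj, mul_assoc])]
              have h1 : lam b * lam b⁻¹ = 1 := by rw [← hlmul, mul_inv_cancel, hlone]
              calc lam (cj r.out ⟨q.out * b * q.out⁻¹, hA.conj_mem _ b.2 _⟩)
                  = (lam b * lam b⁻¹) * lam (cj r.out ⟨q.out * b * q.out⁻¹, hA.conj_mem _ b.2 _⟩) :=
                    by rw [h1, one_mul]
                _ = lam b := by rw [mul_assoc, hb, mul_one]
            rw [← QuotientGroup.out_eq' r, ← QuotientGroup.out_eq' q]
            exact (QuotientGroup.eq.2 hmem).symm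
          rw [show ∑ a, lam (cj q.out a⁻¹) * lam (cj r.out a) = 0 from sum_hom_units_eq_zero f hf,
            zero_smul]
      have h0 := congrArg e hc
      simp only [F, LinearMap.sum_apply, LinearMap.comp_apply, LinearMap.proj_apply,
        Submodule.subtype_apply, map_sum, map_zero] at h0
      rw [sum_congr rfl fun r _ => he r _ (c r).2, sum_ite_eq', if_pos (mem_univ _),
        smul_eq_zero] at h0
      have h1 := h0.resolve_left (Nat.cast_ne_zero.2 Nat.card_pos.ne')
      refine Subtype.ext ?_
      have h2 := congrArg (ρ q.out⁻¹) h1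
      rwa [← Module.End.mul_apply, ← map_mul, inv_mul_cancel, map_one, Module.End.one_apply,
        map_zero] at h2
    have h := LinearMap.finrank_le_finrank_of_injective hF
    rwa [Module.finrank_pi_fintype, sum_const, card_univ, ← Nat.card_eq_fintype_card,
      ← Subgroup.index_eq_card, smul_eq_mul] at h
  set τ := W.toRepresentation
  have hcls : ∀ g x, induced T τ.character (g * x * g⁻¹) = induced T τ.character x :=
    induced_conj T τ.character
  choose! m hm using fun (χ : G → ℂ) (hχ : χ ∈ irr G) =>
    show ∃ m : ℕ, pairing (induced T τ.character) χ = m by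
      obtain ⟨U, -, rfl⟩ := exists_of_mem_irr hχ
      rw [pairing_induced T τ.character fun g x => U.toRepresentation.char_conj x g]
      haveI : Invertible (Nat.card T : ℂ) :=
        invertibleOfNonzero (Nat.cast_ne_zero.2 Nat.card_pos.ne')
      exact ⟨_, Representation.card_inv_mul_sum_char_mul_char_eq_finrank
        (U.toRepresentation.comp T.subtype : Representation ℂ T _) τ⟩
  choose! d hd using fun (χ : G → ℂ) (hχ : χ ∈ irr G) => irr_degree hχ
  have hone : induced T τ.character 1 = ((T.index * finrank ℂ E : ℕ) : ℂ) := by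
    have hterm : ∀ g : G, zext T τ.character (g * 1 * g⁻¹) = τ.character 1 := fun g => by
      rw [mul_one, mul_inv_cancel, ← Subgroup.coe_one T, zext_coe]
    rw [induced_eq, sum_congr rfl fun g _ => hterm g, sum_const, card_univ,
      ← Nat.card_eq_fintype_card, nsmul_eq_mul, ← T.index_mul_card, Representation.char_one]
    push_cast
    field_simp
    rfl
  have hsum' : ∑ χ ∈ irr G, m χ * d χ = T.index * finrank ℂ E := by
    have h := expansion hcls 1
    rw [hone, sum_congr rfl fun χ hχ => by rw [hm χ hχ, (hd χ hχ).1]] at h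
    exact_mod_cast h.symm
  have hρ := character_mem_irr ρ
  have hdρ : d ρ.character = finrank ℂ V := by
    have := (hd _ hρ).1
    rw [Representation.char_one] at this
    exact_mod_cast this.symm
  have hmρ : m ρ.character ≠ 0 := fun h0 => by
    have h := hm _ hρ
    rw [pairing_induced T τ.character (fun g x => ρ.char_conj x g), h0, Nat.cast_zero] at h
    haveI : Invertible (Nat.card T : ℂ) :=
      invertibleOfNonzero (Nat.cast_ne_zero.2 Nat.card_pos.ne')
    have h3 : finrank ℂ (Representation.IntertwiningMap τ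
        (ρ.comp T.subtype : Representation ℂ T V)) = 0 := by
      exact_mod_cast (Representation.card_inv_mul_sum_char_mul_char_eq_finrank τ
        (ρ.comp T.subtype : Representation ℂ T V)).symm.trans ((pairing_comm _ _).trans h)
    set ι : Representation.IntertwiningMap τ (ρ.comp T.subtype) := ⟨E.subtype, fun t => rfl⟩
    have hι : ι = 0 := by
      haveI := Module.finrank_zero_iff.1 h3
      exact Subsingleton.elim _ _
    exact hv (congrArg (fun f : Representation.IntertwiningMap τ (ρ.comp T.subtype) =>
      f.toLinearMap (⟨v, hvE⟩ : E)) hι)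
  have hbound : ∑ χ ∈ irr G, m χ * d χ ≤ d ρ.character := hsum' ▸ hdρ ▸ hdeg
  rw [← add_sum_erase _ _ hρ] at hbound
  have hdpos : ∀ χ ∈ irr G, d χ ≠ 0 := fun χ hχ h0 => by
    obtain ⟨e, he, he1⟩ := irr_one hχ
    rw [(hd χ hχ).1, h0, Nat.cast_inj] at he1
    exact he he1.symm
  have hm1 : m ρ.character = 1 := by
    by_contra hne
    have := Nat.mul_le_mul_right (d ρ.character) (show 2 ≤ m ρ.character by omega)
    have := hdpos _ hρ
    omega
  rw [hm1, one_mul] at hbound
  funext x
  rw [expansion hcls x, ← add_sum_erase _ _ hρ, hm _ hρ, hm1, Nat.cast_one, one_mul,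
    sum_eq_zero, add_zero]
  intro χ hχ
  obtain ⟨hne, hχ'⟩ := mem_erase.1 hχ
  have h0 : m χ * d χ = 0 := by
    have := single_le_sum (f := fun χ => m χ * d χ) (fun i _ => Nat.zero_le _) hχ
    omega
  rw [hm χ hχ', (mul_eq_zero.1 h0).resolve_right (hdpos χ hχ'), Nat.cast_zero, zero_mul]

open scoped Classical in
/-- **Hyperelementary groups**: an irreducible representation of degree `> 1` is induced from a
proper subgroup. -/
theorem exists_induced_of_hyper [Representation.IsIrreducible ρ] (hG : IsHyper (⊤ : Subgroup G))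
    (hdim : finrank ℂ V ≠ 1) :
    ∃ (T : Subgroup G) (W : Subrepresentation (ρ.comp T.subtype : Representation ℂ T V)), T ≠ ⊤ ∧
      ρ.character = induced T W.toRepresentation.character := by
  obtain ⟨p, hp, C, -, hcyc, -, hn, hpow⟩ := hG
  by_cases hC : ∃ a ∈ C, ∀ c : ℂ, ρ a ≠ c • 1
  · haveI := hcyc
    refine exists_induced_of_normal ρ ⟨fun c hc g => hn g trivial c hc⟩ (fun a ha b hb => ?_) hC
    letI := hcyc.commGroup
    rw [← map_mul, ← map_mul]
    exact congrArg ρ (congrArg Subtype.val (mul_comm (⟨a, ha⟩ : C) ⟨b, hb⟩))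
  push Not at hC
  haveI := Fact.mk hp
  set r : G →* (Module.End ℂ V)ˣ := MonoidHom.toHomUnits ρ
  have hr : ∀ g, (r g : Module.End ℂ V) = ρ g := fun g => rfl
  set π : G →* r.range ⧸ Subgroup.center r.range :=
    (QuotientGroup.mk' _).comp r.rangeRestrict
  have hπ : Function.Surjective π :=
    (QuotientGroup.mk'_surjective _).comp r.rangeRestrict_surjective
  have hscalar : ∀ g, (∃ c : ℂ, ρ g = c • 1) → π g = 1 := fun g ⟨c, hc⟩ => by
    refine (QuotientGroup.eq_one_iff _).2 (Subgroup.mem_center_iff.2 ?_)
    rintro ⟨_, k, rfl⟩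
    refine Subtype.ext (Units.ext ?_)
    show ρ k * ρ g = ρ g * ρ k
    rw [hc, mul_smul_comm, smul_mul_assoc, mul_one, one_mul]
  have hpg : IsPGroup p (r.range ⧸ Subgroup.center r.range) := fun q => by
    obtain ⟨g, rfl⟩ := hπ q
    obtain ⟨k, hk⟩ := hpow g trivial
    exact ⟨k, by rw [← map_pow]; exact hscalar _ (hC _ hk)⟩
  haveI : Finite r.range := Finite.of_surjective _ r.rangeRestrict_surjective
  by_cases hab : ∀ g k, ρ g * ρ k = ρ k * ρ g
  · exfalso
    refine hdim ?_
    have hsc : ∀ g, ∃ c : ℂ, ρ g = c • 1 := fun g => by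
      obtain ⟨w, hw⟩ :=
        (Representation.IsIrreducible.algebraMap_intertwiningMap_bijective_of_isAlgClosed
          (ρ := ρ)).2 ⟨ρ g, fun k => hab g k⟩
      exact ⟨w, ((congrArg Representation.IntertwiningMap.toLinearMap hw).symm).trans
        (Algebra.algebraMap_eq_smul_one w)⟩
    haveI : Nontrivial V :=
      Module.nontrivial_of_finrank_pos (Nat.pos_of_ne_zero (finrank_ne_zero ρ))
    obtain ⟨v, hv⟩ := exists_ne (0 : V)
    set P : Subrepresentation ρ := ⟨Submodule.span ℂ {v}, fun g w hw => by
      obtain ⟨c, hc⟩ := hsc g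
      rw [hc, LinearMap.smul_apply, Module.End.one_apply]
      exact Submodule.smul_mem _ _ hw⟩
    rcases eq_bot_or_eq_top P with h | h
    · exact absurd (show v ∈ (⊥ : Subrepresentation ρ) from
        h ▸ Submodule.mem_span_singleton_self v) hv
    · have ht : Submodule.span ℂ {v} = (⊤ : Submodule ℂ V) :=
        congrArg Subrepresentation.toSubmodule h
      rw [← finrank_top ℂ V, ← ht, finrank_span_singleton hv]
  haveI : Nontrivial (r.range ⧸ Subgroup.center r.range) := by
    by_contra hnt
    haveI := not_nontrivial_iff_subsingleton.1 hnt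
    refine hab fun g k => ?_
    have h := (QuotientGroup.eq_one_iff (r.rangeRestrict g)).1
      (Subsingleton.elim (α := r.range ⧸ Subgroup.center r.range) _ _)
    have h2 := Subgroup.mem_center_iff.1 h (r.rangeRestrict k)
    exact (congrArg (fun z : r.range => ((z : (Module.End ℂ V)ˣ) : Module.End ℂ V)) h2).symm
  haveI := hpg.center_nontrivial
  obtain ⟨⟨z, hz⟩, hz1⟩ :=
    exists_ne (1 : Subgroup.center (r.range ⧸ Subgroup.center r.range))
  haveI hzn : (Subgroup.zpowers z).Normal := ⟨fun a ha g => by
    obtain ⟨i, rfl⟩ := Subgroup.mem_zpowers_iff.1 ha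
    rw [Subgroup.mem_center_iff.1 (Subgroup.zpow_mem _ hz i) g, mul_inv_cancel_right]
    exact Subgroup.zpow_mem _ (Subgroup.mem_zpowers z) i⟩
  refine exists_induced_of_normal ρ (A := (Subgroup.zpowers z).comap π) (hzn.comap π)
    (fun a ha b hb => ?_) ?_
  · obtain ⟨g, hg⟩ := hπ z
    have hform : ∀ a ∈ (Subgroup.zpowers z).comap π, ∃ i : ℤ, ∃ c ∈ Subgroup.center r.range,
        r.rangeRestrict a = r.rangeRestrict g ^ i * c := fun a ha => by
      obtain ⟨i, hi⟩ := Subgroup.mem_zpowers_iff.1 ha
      refine ⟨i, (r.rangeRestrict g ^ i)⁻¹ * r.rangeRestrict a, ?_, by rw [mul_inv_cancel_left]⟩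
      rw [← QuotientGroup.eq, QuotientGroup.mk_zpow]
      exact (congrArg (· ^ i) hg).trans hi
    obtain ⟨i, c, hc, ha'⟩ := hform a ha
    obtain ⟨j, e, he, hb'⟩ := hform b hb
    have hcom : r.rangeRestrict a * r.rangeRestrict b = r.rangeRestrict b * r.rangeRestrict a := by
      have hce : ∀ x, Commute c x := fun x => (Subgroup.mem_center_iff.1 hc x).symm
      have hee : ∀ x, Commute e x := fun x => (Subgroup.mem_center_iff.1 he x).symm
      rw [ha', hb']
      exact (((Commute.zpow_zpow_self _ i j).mul_right ((hee _).symm)).mul_left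
        ((hce _).mul_right (hce _))).eq
    exact congrArg (fun z : r.range => ((z : (Module.End ℂ V)ˣ) : Module.End ℂ V)) hcom
  · obtain ⟨g, hg⟩ := hπ z
    refine ⟨g, by rw [Subgroup.mem_comap, hg]; exact Subgroup.mem_zpowers z, fun c hc => ?_⟩
    exact hz1 (Subtype.ext ((hg.symm).trans (hscalar g ⟨c, hc⟩)))

end FA.BrauerInduction

end
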