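import Fermat.Agent.BrauerInduction.Basic
import Mathlib.GroupTheory.Sylow
import Mathlib.GroupTheory.QuotientGroup.Basic

/-!
# Solomon's induction theorem

The span of the permutation characters of the hyperelementary subgroups is closed under products,
as an orbit of `G / H × G / K` has a hyperelementary stabiliser, and for each element and prime it
holds a function whose value there is prime to `p`; by Banaschewski's lemma it contains `1`.
-/

set_option autoImplicit false
set_option linter.style.haveILetI false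

noncomputable section

open Finset Module MulAction FA.CharacterTheory

namespace FA.BrauerInduction

variable {G : Type*} [Group G]

/-- `H` is an extension of a `p`-group by a cyclic normal subgroup of order prime to `p`. -/
def HyperAt (p : ℕ) (H : Subgroup G) : Prop :=
  ∃ C : Subgroup G, C ≤ H ∧ IsCyclic C ∧ (Nat.card C).Coprime p ∧
    (∀ h ∈ H, ∀ c ∈ C, h * c * h⁻¹ ∈ C) ∧ ∀ h ∈ H, ∃ k : ℕ, h ^ p ^ k ∈ C

/-- A hyperelementary subgroup. -/
def IsHyper (H : Subgroup G) : Prop := ∃ p, p.Prime ∧ HyperAt p H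

theorem IsHyper.mono {H K : Subgroup G} (hH : IsHyper H) (hle : K ≤ H) : IsHyper K := by
  obtain ⟨p, hp, C, -, hcyc, hcop, hn, hpow⟩ := hH
  haveI := hcyc
  refine ⟨p, hp, C ⊓ K, inf_le_right, Subgroup.isCyclic_of_le inf_le_left, ?_, fun h hh c hc => ?_,
    fun h hh => ?_⟩
  · exact hcop.coprime_dvd_left (Subgroup.card_dvd_of_le inf_le_left)
  · exact ⟨hn h (hle hh) c hc.1, K.mul_mem (K.mul_mem hh hc.2) (K.inv_mem hh)⟩
  · obtain ⟨k, hk⟩ := hpow h (hle hh)
    exact ⟨k, hk, K.pow_mem hh _⟩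

variable [Fintype G]

/-- A fixed-point count splits along the orbits. -/
theorem card_fixedBy_eq_sum {X : Type*} [MulAction G X] [Finite X]
    [Fintype (orbitRel.Quotient G X)] (x : G) :
    Nat.card (fixedBy X x) = ∑ ω : orbitRel.Quotient G X, permChar (stabilizer G ω.out) x := by
  set f : (Σ ω : orbitRel.Quotient G X, G ⧸ stabilizer G ω.out) → X :=
    fun a => ofQuotientStabilizer G a.1.out a.2
  have hf : Function.Bijective f := by
    refine ⟨fun a b hab => ?_, fun y => ?_⟩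
    · obtain ⟨ω, q⟩ := a
      obtain ⟨ω', q'⟩ := b
      have h1 : ω = ω' := by
        rw [← Quotient.out_eq' ω, ← Quotient.out_eq' ω', Quotient.eq'', orbitRel_apply]
        have ha := ofQuotientStabilizer_mem_orbit G ω.out q
        have hb := ofQuotientStabilizer_mem_orbit G ω'.out q'
        simp only [f] at hab
        rw [hab] at ha
        rw [← orbit_eq_iff.2 hb]
        exact mem_orbit_symm.1 ha
      subst h1
      exact Sigma.ext rfl (heq_of_eq (injective_ofQuotientStabilizer G ω.out hab))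
    · obtain ⟨g, hg⟩ : y ∈ orbit G (Quotient.mk'' y : orbitRel.Quotient G X).out :=
        orbitRel_apply.1 ((orbitRel G X).symm (Quotient.mk_out' y))
      exact ⟨⟨Quotient.mk'' y, QuotientGroup.mk g⟩, hg⟩
  have hsmul : ∀ a, f ⟨a.1, x • a.2⟩ = x • f a := fun a =>
    ofQuotientStabilizer_smul G a.1.out x a.2
  simp only [permChar]
  rw [← Nat.card_sigma]
  refine (Nat.card_congr ?_).symm
  refine Equiv.ofBijective (fun a => ⟨f ⟨a.1, a.2.1⟩, ?_⟩) ⟨fun a b hab => ?_, fun y => ?_⟩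
  · rw [mem_fixedBy, ← hsmul]
    exact congrArg (fun z => f ⟨a.1, z⟩) a.2.2
  · have := hf.1 (congrArg Subtype.val hab)
    obtain ⟨ω, q⟩ := a
    obtain ⟨ω', q'⟩ := b
    obtain ⟨rfl, h2⟩ := Sigma.ext_iff.1 this
    exact Sigma.ext rfl (heq_of_eq (Subtype.ext (eq_of_heq h2)))
  · obtain ⟨⟨ω, q⟩, hq⟩ := hf.2 y.1
    have hfix : x • q = q := by
      have h1 : f ⟨ω, x • q⟩ = f ⟨ω, q⟩ := by
        rw [hsmul ⟨ω, q⟩, hq]
        exact y.2
      exact eq_of_heq (Sigma.ext_iff.1 (hf.1 h1)).2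
    exact ⟨⟨ω, q, hfix⟩, Subtype.ext hq⟩

/-- **A hyperelementary subgroup with permutation character prime to `p` at `x`.** -/
theorem exists_hyper_not_dvd (x : G) {p : ℕ} (hp : p.Prime) :
    ∃ H : Subgroup G, IsHyper H ∧ ¬p ∣ permChar H x := by
  haveI := Fact.mk hp
  obtain ⟨k, m, hm, hn⟩ := Nat.exists_eq_pow_mul_and_not_dvd (orderOf_pos x).ne' p hp.ne_one
  have hcop : (p ^ k).Coprime m := ((hp.coprime_iff_not_dvd.2 hm)).pow_left k
  set A := (p ^ k).gcdA m
  set B := (p ^ k).gcdB m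
  have hbez : ((p ^ k : ℕ) : ℤ) * A + (m : ℤ) * B = 1 := by
    rw [← Nat.gcd_eq_gcd_ab, show (p ^ k).gcd m = 1 from hcop, Nat.cast_one]
  set u := x ^ (((p ^ k : ℕ) : ℤ) * A)
  set v := x ^ ((m : ℤ) * B)
  have hxn : x ^ (((p ^ k : ℕ) : ℤ) * m) = 1 := by
    rw [← Nat.cast_mul, zpow_natCast, ← hn, pow_orderOf_eq_one]
  have hu : u ^ m = 1 := by
    rw [← zpow_natCast u, ← zpow_mul, mul_right_comm, zpow_mul, hxn, one_zpow]
  have hv : v ^ p ^ k = 1 := by
    rw [← zpow_natCast v, ← zpow_mul, show (m : ℤ) * B * ((p ^ k : ℕ) : ℤ) =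
      ((p ^ k : ℕ) : ℤ) * m * B by ring, zpow_mul, hxn, one_zpow]
  have huv : u * v = x := by rw [← zpow_add, hbez, zpow_one]
  set C := Subgroup.zpowers u
  set N := Subgroup.normalizer (C : Set G)
  have hCN : C ≤ N := Subgroup.le_normalizer
  have hvN : v ∈ N := by
    refine Subgroup.mem_normalizer_iff.2 fun c => ?_
    have hc : ∀ d ∈ C, Commute v d := fun d hd => by
      obtain ⟨i, rfl⟩ := Subgroup.mem_zpowers_iff.1 hd
      exact (Commute.zpow_zpow_self x _ _).zpow_right i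
    constructor
    · intro hd
      rwa [show v * c * v⁻¹ = c by rw [(hc c hd).eq, mul_inv_cancel_right]]
    · intro hd
      rw [show c = v⁻¹ * (v * c * v⁻¹) * v by group, ((hc _ hd).inv_left).eq, inv_mul_cancel_right]
      exact hd
  have hpg : IsPGroup p (Subgroup.zpowers (⟨v, hvN⟩ : N)) := by
    obtain ⟨j, -, hj⟩ := (Nat.dvd_prime_pow hp).1 (orderOf_dvd_of_pow_eq_one
      (show (⟨v, hvN⟩ : N) ^ p ^ k = 1 from Subtype.ext hv))
    exact IsPGroup.of_card (n := j) (by rw [Nat.card_zpowers, hj])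
  obtain ⟨P, hP⟩ := hpg.exists_le_sylow
  set C' := C.subgroupOf N
  haveI hC'n : C'.Normal := Subgroup.normal_subgroupOf_of_le_normalizer le_rfl
  set H' := C' ⊔ (P : Subgroup N)
  set H := H'.map N.subtype
  have hCH : C ≤ H := fun c hc => ⟨⟨c, hCN hc⟩, Subgroup.mem_sup_left hc, rfl⟩
  have hpowC : ∀ h ∈ H, ∃ j : ℕ, h ^ p ^ j ∈ C := fun h ⟨h', hh', e⟩ => by
    obtain ⟨c, hc, y, hy, rfl⟩ := Subgroup.mem_sup_of_normal_left.1 hh'
    obtain ⟨j, hj⟩ := P.2 ⟨y, hy⟩
    refine ⟨j, ?_⟩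
    have h1 : (((c * y : N) ^ p ^ j : N) : N ⧸ C') = 1 := by
      rw [QuotientGroup.mk_pow, QuotientGroup.mk_mul, (QuotientGroup.eq_one_iff c).2 hc, one_mul,
        ← QuotientGroup.mk_pow, show y ^ p ^ j = 1 from congrArg Subtype.val hj,
        QuotientGroup.mk_one]
    have h2 := (QuotientGroup.eq_one_iff _).1 h1
    rw [← e, Subgroup.coe_subtype, ← SubmonoidClass.coe_pow]
    exact h2
  have hcardC : (Nat.card C).Coprime p := by
    rw [Nat.card_zpowers]
    exact Nat.Coprime.coprime_dvd_left (orderOf_dvd_of_pow_eq_one hu)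
      (hp.coprime_iff_not_dvd.2 hm).symm
  have hconj : ∀ h ∈ H, ∀ c ∈ C, h * c * h⁻¹ ∈ C := fun h ⟨h', _, e⟩ c hc => by
    rw [← e]
    exact (Subgroup.mem_normalizer_iff.1 h'.2 c).1 hc
  refine ⟨H, ⟨p, hp, C, hCH, inferInstance, hcardC, hconj, hpowC⟩, ?_⟩
  have hfix : ∀ g : G, g⁻¹ * x * g ∈ H → g ∈ N := fun g hg => by
    have hug : g⁻¹ * u * g ∈ C := by
      have h1 : g⁻¹ * u * g ∈ H := by
        have := H.zpow_mem hg (((p ^ k : ℕ) : ℤ) * A)
        rwa [show (g⁻¹ * x * g) = g⁻¹ * x * g⁻¹⁻¹ by rw [inv_inv], conj_zpow, inv_inv] at this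
      obtain ⟨j, hj⟩ := hpowC _ h1
      have hm' : (g⁻¹ * u * g) ^ m = 1 := by
        rw [show g⁻¹ * u * g = g⁻¹ * u * g⁻¹⁻¹ by rw [inv_inv], conj_pow, hu]
        group
      have hc : (p ^ j).Coprime m := (hp.coprime_iff_not_dvd.2 hm).pow_left j
      have hbez' : ((p ^ j : ℕ) : ℤ) * (p ^ j).gcdA m + (m : ℤ) * (p ^ j).gcdB m = 1 := by
        rw [← Nat.gcd_eq_gcd_ab, show (p ^ j).gcd m = 1 from hc, Nat.cast_one]
      rw [← zpow_one (g⁻¹ * u * g), ← hbez', zpow_add, zpow_mul, zpow_mul, zpow_natCast,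
        zpow_natCast, hm', one_zpow, mul_one]
      exact C.zpow_mem hj _
    have hle : C.map (MulAut.conj g⁻¹).toMonoidHom ≤ C := by
      rintro _ ⟨d, hd, rfl⟩
      obtain ⟨i, rfl⟩ := Subgroup.mem_zpowers_iff.1 hd
      rw [map_zpow]
      refine C.zpow_mem ?_ i
      simpa [MulAut.conj_apply] using hug
    have heq := Subgroup.eq_of_le_of_card_ge hle
      (Nat.card_congr (C.equivMapOfInjective _ (MulAut.conj g⁻¹).injective).toEquiv).le
    refine inv_mem_iff.1 (Subgroup.mem_normalizer_iff.2 fun c => ?_)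
    constructor
    · intro hc
      exact heq ▸ ⟨c, hc, by simp⟩
    · intro hc
      obtain ⟨d, hd, hdc⟩ := (heq.symm ▸ hc :
        g⁻¹ * c * g⁻¹⁻¹ ∈ C.map (MulAut.conj g⁻¹).toMonoidHom)
      have : d = c := (MulAut.conj g⁻¹).injective (hdc.trans (by simp))
      exact this ▸ hd
  set x' : N := ⟨u, hCN (Subgroup.mem_zpowers u)⟩ * ⟨v, hvN⟩
  have hx' : (x' : G) = x := huv
  have hsub : ∀ n : N, (n : G) ∈ H ↔ n ∈ H' := fun n =>
    ⟨fun ⟨n', hn', e⟩ => Subtype.ext e ▸ hn', fun h => ⟨n, h, rfl⟩⟩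
  set φ : N ⧸ H' → G ⧸ H := fun q => Quotient.liftOn' q (fun n : N => ((n : G) : G ⧸ H))
    fun a b hab => QuotientGroup.eq.2 (by
      rw [← Subgroup.coe_inv, ← Subgroup.coe_mul, hsub]
      exact QuotientGroup.leftRel_apply.1 hab)
  have hφ : Function.Injective φ := fun a b hab => by
    induction a using QuotientGroup.induction_on with | _ a => ?_
    induction b using QuotientGroup.induction_on with | _ b => ?_
    have h1 : ((a : G) : G ⧸ H) = ((b : G) : G ⧸ H) := hab
    rw [QuotientGroup.eq, ← Subgroup.coe_inv, ← Subgroup.coe_mul, hsub] at h1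
    exact QuotientGroup.eq.2 h1
  have hφs : ∀ q, φ (x' • q) = x • φ q := fun q => by
    induction q using QuotientGroup.induction_on with | _ n => ?_
    rw [← hx']
    rfl
  have hcount : permChar H x = Nat.card (fixedBy (N ⧸ H') x') := by
    refine (Nat.card_congr (Equiv.ofBijective
      (fun q : fixedBy (N ⧸ H') x' =>
        (⟨φ q.1, (hφs q.1).symm.trans (congrArg φ q.2)⟩ : fixedBy (G ⧸ H) x))
      ⟨fun a b hab => Subtype.ext (hφ (congrArg Subtype.val hab)), fun q => ?_⟩)).symm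
    obtain ⟨q, hq⟩ := q
    induction q using QuotientGroup.induction_on with | _ g => ?_
    rw [mem_fixedBy, MulAction.Quotient.smul_coe, smul_eq_mul, QuotientGroup.eq] at hq
    have hg : g ∈ N := hfix g (by
      have := H.inv_mem hq
      rwa [show ((x * g)⁻¹ * g)⁻¹ = g⁻¹ * x * g by group] at this)
    refine ⟨⟨((⟨g, hg⟩ : N) : N ⧸ H'), ?_⟩, rfl⟩
    rw [mem_fixedBy, MulAction.Quotient.smul_coe, smul_eq_mul, QuotientGroup.eq, ← hsub]
    simpa [hx'] using hq
  have htriv : ∀ q : N ⧸ H', (⟨u, hCN (Subgroup.mem_zpowers u)⟩ : N) • q = q := fun q => by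
    induction q using QuotientGroup.induction_on with | _ n => ?_
    rw [MulAction.Quotient.smul_coe, smul_eq_mul, QuotientGroup.eq]
    refine Subgroup.mem_sup_left ?_
    have hc : (⟨u, hCN (Subgroup.mem_zpowers u)⟩ : N) ∈ C' := Subgroup.mem_zpowers u
    have := hC'n.conj_mem _ (C'.inv_mem hc) n⁻¹
    rwa [inv_inv, ← mul_inv_rev] at this
  have hfeq : fixedBy (N ⧸ H') x' = fixedPoints (Subgroup.zpowers (⟨v, hvN⟩ : N)) (N ⧸ H') := by
    ext q
    rw [mem_fixedBy, mem_fixedPoints]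
    simp only [x', mul_smul, htriv]
    refine ⟨fun h w => ?_, fun h => h ⟨_, Subgroup.mem_zpowers _⟩⟩
    exact mem_stabilizer_iff.1 (Subgroup.zpowers_le.2 (mem_stabilizer_iff.2 h) w.2)
  rw [hcount, hfeq]
  have hmod := hpg.card_modEq_card_fixedPoints (N ⧸ H')
  rw [← Subgroup.index_eq_card] at hmod
  intro hdvd
  refine P.not_dvd_index ?_
  exact (hmod.dvd_iff dvd_rfl).2 hdvd |>.trans (Subgroup.index_dvd_of_le le_sup_right)

/-- The span of the permutation characters of hyperelementary subgroups. -/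
def hyperSpan (G : Type*) [Group G] [Fintype G] : AddSubgroup (G → ℤ) :=
  AddSubgroup.closure {f | ∃ H : Subgroup G, IsHyper H ∧ f = fun x => (permChar H x : ℤ)}

theorem hyperSpan_mul {f g : G → ℤ} (hf : f ∈ hyperSpan G) (hg : g ∈ hyperSpan G) :
    f * g ∈ hyperSpan G := by
  classical
  induction hf using AddSubgroup.closure_induction with
  | zero => rw [zero_mul]; exact zero_mem _
  | add a b _ _ ha hb => rw [add_mul]; exact add_mem ha hb
  | neg a _ ha => rw [neg_mul]; exact neg_mem ha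
  | mem a ha =>
    induction hg using AddSubgroup.closure_induction with
    | zero => rw [mul_zero]; exact zero_mem _
    | add c d _ _ hc hd => rw [mul_add]; exact add_mem hc hd
    | neg c _ hc => rw [mul_neg]; exact neg_mem hc
    | mem c hc =>
      obtain ⟨H, hH, rfl⟩ := ha
      obtain ⟨K, -, rfl⟩ := hc
      haveI := Fintype.ofFinite (orbitRel.Quotient G ((G ⧸ H) × (G ⧸ K)))
      have h : (fun x => (permChar H x : ℤ)) * (fun x => (permChar K x : ℤ)) =
          ∑ ω : orbitRel.Quotient G ((G ⧸ H) × (G ⧸ K)),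
            fun x => (permChar (stabilizer G ω.out) x : ℤ) := by
        funext x
        rw [Finset.sum_apply, Pi.mul_apply, ← Nat.cast_mul, ← Nat.cast_sum,
          ← card_fixedBy_eq_sum x, permChar, permChar, ← Nat.card_prod]
        congr 1
        exact Nat.card_congr ⟨fun q => ⟨(q.1.1, q.2.1), Prod.ext q.1.2 q.2.2⟩,
          fun q => (⟨q.1.1, congrArg Prod.fst q.2⟩, ⟨q.1.2, congrArg Prod.snd q.2⟩),
          fun _ => rfl, fun _ => rfl⟩
      rw [h]
      refine AddSubgroup.sum_mem _ fun ω _ => AddSubgroup.subset_closure ?_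
      refine ⟨_, ?_, rfl⟩
      obtain ⟨g, hg⟩ := QuotientGroup.mk_surjective ω.out.1
      have hconj : IsHyper (H.map (MulAut.conj g).toMonoidHom) := by
        obtain ⟨p, hp, C, hCH, hcyc, hcop, hn, hpow⟩ := hH
        haveI := hcyc
        refine ⟨p, hp, C.map (MulAut.conj g).toMonoidHom, Subgroup.map_mono hCH,
          isCyclic_of_surjective _ (C.equivMapOfInjective _ (MulAut.conj g).injective).surjective,
          ?_, ?_, ?_⟩
        · rwa [← Nat.card_congr (C.equivMapOfInjective _ (MulAut.conj g).injective).toEquiv]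
        · rintro _ ⟨h, hh, rfl⟩ _ ⟨c, hc, rfl⟩
          exact ⟨_, hn h hh c hc, by simp [mul_assoc]⟩
        · rintro _ ⟨h, hh, rfl⟩
          obtain ⟨k, hk⟩ := hpow h hh
          exact ⟨k, _, hk, by simp⟩
      refine hconj.mono fun s hs => ⟨g⁻¹ * s * g, ?_, by simp [mul_assoc]⟩
      have h1 : s • ω.out.1 = ω.out.1 := congrArg Prod.fst (mem_stabilizer_iff.1 hs)
      rw [← hg, MulAction.Quotient.smul_coe, smul_eq_mul, QuotientGroup.eq] at h1
      have := H.inv_mem h1
      rwa [show ((s * g)⁻¹ * g)⁻¹ = g⁻¹ * s * g by group] at this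

/-- **Banaschewski's lemma.** -/
theorem one_mem_of_forall {X : Type*} [Fintype X] (R : AddSubgroup (X → ℤ))
    (hmul : ∀ f ∈ R, ∀ g ∈ R, f * g ∈ R)
    (h : ∀ x, ∀ p : ℕ, p.Prime → ∃ f ∈ R, ¬(p : ℤ) ∣ f x) : (1 : X → ℤ) ∈ R := by
  classical
  have hone : ∀ x, ∃ f ∈ R, f x = 1 := fun x => by
    obtain ⟨a, ha⟩ := Int.subgroup_cyclic (R.map (Pi.evalAddMonoidHom (fun _ => ℤ) x))
    by_cases h1 : a.natAbs = 1
    · have hm : (1 : ℤ) ∈ R.map (Pi.evalAddMonoidHom (fun _ => ℤ) x) := by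
        rw [ha, AddSubgroup.mem_closure_singleton]
        rcases Int.natAbs_eq a with e | e <;> rw [h1] at e
        · exact ⟨1, by simp [e]⟩
        · exact ⟨-1, by simp [e]⟩
      obtain ⟨f, hf, hfx⟩ := hm
      exact ⟨f, hf, hfx⟩
    · exfalso
      obtain ⟨p, hp, hpa⟩ := Nat.exists_prime_and_dvd h1
      obtain ⟨f, hf, hfx⟩ := h x p hp
      have hm : f x ∈ AddSubgroup.closure ({a} : Set ℤ) := ha ▸ ⟨f, hf, rfl⟩
      obtain ⟨n, hn⟩ := AddSubgroup.mem_closure_singleton.1 hm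
      refine hfx ?_
      rw [← hn, smul_eq_mul]
      exact (Int.natCast_dvd.2 hpa).mul_left n
  have hS : ∀ S : Finset X, ∃ f ∈ R, ∀ x ∈ S, f x = 1 := fun S => by
    induction S using Finset.induction with
    | empty => exact ⟨0, zero_mem _, by simp⟩
    | insert y S _ ih =>
      obtain ⟨f, hf, hfS⟩ := ih
      obtain ⟨g, hg, hgy⟩ := hone y
      refine ⟨f + g - f * g, sub_mem (add_mem hf hg) (hmul f hf g hg), fun x hx => ?_⟩
      simp only [Pi.sub_apply, Pi.add_apply, Pi.mul_apply]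
      rcases Finset.mem_insert.1 hx with rfl | hx
      · rw [hgy]; ring
      · rw [hfS x hx]; ring
  obtain ⟨f, hf, hf1⟩ := hS univ
  convert hf using 1
  exact funext fun x => (hf1 x (mem_univ x)).symm

/-- **Solomon's theorem.** -/
theorem solomon (G : Type*) [Group G] [Fintype G] : (1 : G → ℤ) ∈ hyperSpan G :=
  one_mem_of_forall _ (fun _ hf _ hg => hyperSpan_mul hf hg) fun x p hp => by
    obtain ⟨H, hH, hdvd⟩ := exists_hyper_not_dvd x hp
    exact ⟨_, AddSubgroup.subset_closure ⟨H, hH, rfl⟩, fun h => hdvd (Int.natCast_dvd_natCast.1 h)⟩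

end FA.BrauerInduction

end
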